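/-
The Jacobian of a curve over an algebraically closed field, from the lifting property of the
charts.
-/
import Fermat.Agent.Jacobian.Charts.Main
import Fermat.Agent.Jacobian.Charts.Acyclic
import Fermat.Agent.Jacobian.Charts.Section
import Fermat.Agent.Jacobian.Charts.Colength
import Fermat.Agent.Jacobian.Bridge.Main
import Fermat.Agent.Jacobian.Curve.Diagonal
import Fermat.Agent.Jacobian.Curve.PointDivisor
import Fermat.Agent.Jacobian.Model.Main
import Fermat.Agent.Jacobian.FieldTheory.Main
import Fermat.Agent.Jacobian.Glue.Representable
import Fermat.Agent.Jacobian.Glue.Represents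
import Fermat.Agent.Jacobian.Props.Cut
import Fermat.Agent.Jacobian.Props.Proper

set_option autoImplicit false

universe u

open CategoryTheory CategoryTheory.Limits AlgebraicGeometry AlgebraicGeometry.RelPicard
  NeronModelInfra GoodReductionJacobian

noncomputable section

namespace Fermat.Agent.Jacobian

variable {k : Type u} [Field k] [IsAlgClosed k] {C : Scheme.{u}}
  (c : C ⟶ Spec (CommRingCat.of k)) [IsProper c] [SmoothOfRelativeDimension 1 c] [IsIntegral C]
  (ε : SchemeHomOver (𝟙 (Spec (CommRingCat.of k))) c)

theorem exists_representing_of_lift (hlift : ∀ M : CurveModel c ε, M.LiftProperty) :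
    ∃ D : RelativePic0Designation k c,
      Nonempty (RepresentsRelSubPic c ε (algEquivZeroCut c ε) D) ∧
        Smooth D.toBase ∧ IsProper D.toBase ∧ GeometricallyConnected D.toBase := by
  have hC : CurveBasicsProperty c := curveBasicsProperty c
  obtain ⟨M⟩ := nonempty_curveModel hC ε
  obtain ⟨D⟩ := nonempty_diagDivisor c
  have hpt : PointDivisorProperty c D := pointDivisorProperty c D
  have hone : M.UnitClassProperty := M.unitClassProperty
  have hchi : M.ChiLocConstProperty := M.chiLocConstProperty
  have hF : M.FieldTheory D := FieldTheory.fieldTheory M D hC hpt hone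
  have hch : M.ChartsProperty := M.chartsProperty_of_parts M.globalUnits hchi hone hF
    (acyclicProperty M) (M.sectionProperty D hpt (acyclicProperty M)) M.colengthProperty
    (hlift M)
  exact assemble modulesBridge M M.globalUnits hone hch glueProperty
    (representsProperty modulesBridge) (Props.cutProperty M modulesBridge hC hone hchi hF)
    (Props.jacobianPropsProperty M hC hch hone hF)

end Fermat.Agent.Jacobian
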